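/-
P-DS / P-ES1 / ES1-A, row ES1A-PL2 (helper19): the transparent coset datum at a point of `ℍ` over
every `a ∈ ℂ`, for an arbitrary modular model `X` (generic port of helper61's
`Fermat.Agent.H61.ESPoint1/2/3`).

Changes with respect to the `Γ₀(N)` version:
* the holomorphic realisation `Θ : R →+* (ℍ → ℂ)` comes from `hX.rep`; the only value which is
  needed is `Θ j = jfun` (from `hX.j_rep`);
* `σ γ = σ γ' → γ⁻¹ γ' ∈ Γ` is proved with the separation field `hX.sep` instead of the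
  separating function `j(N z)`.
-/
import Fermat.Agent.H23.ES1A.Basic
import Fermat.Agent.H61.ESPoint2
import Fermat.Agent.H33.MerGerm
import Fermat.Agent.H48.JFacts

set_option autoImplicit false
set_option linter.unusedSectionVars false

noncomputable section

open UpperHalfPlane Filter Topology
open scoped MatrixGroups Manifold

namespace Fermat.Agent.H19.ES1A

open Fermat.Agent.H23 (jfun MerGermField)
open Fermat.Agent.H23.EsA (CosetDatum)
open Fermat.Agent.H23.ES1A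
open Fermat.Agent.H44 (LaurentRel laurentRel_const gen11_exists_lift)
open Fermat.Agent.H61 (pullHom mdiff_pullHom pullHom_injective germHom germHom_injective
  germHom_eq_iff val_germHom exists_nat_order denom_pow_fixed denom_sq_pow_eq_one
  div_gcd_dvd_of_dvd_mul SL_det_pos order_mul_of_mdiff germ_zero isPrimitiveRoot_denom_S
  isPrimitiveRoot_denom_ST)

section theta

variable (X : Model)

/-- The coercion of `X.R` into Laurent series, as a ring homomorphism. -/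
def plCoeHom : ↥X.R →+* LaurentSeries ℂ :=
  (X.F.val : ↥X.F →+* LaurentSeries ℂ).comp (X.R.val : ↥X.R →+* ↥X.F)

lemma plCoeHom_apply (r : ↥X.R) :
    plCoeHom X r = (((r : ↥X.F)) : LaurentSeries ℂ) := rfl

lemma plCoeHom_injective : Function.Injective (plCoeHom X) := by
  intro r s h
  exact Subtype.ext (Subtype.ext h)

lemma plCoe_algebraMap (c : ℂ) :
    ((algebraMap ℂ ↥X.F c : ↥X.F) : LaurentSeries ℂ) = HahnSeries.C c := by
  have h1 : ((algebraMap ℂ ↥X.F c : ↥X.F) : LaurentSeries ℂ)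
      = algebraMap ℂ (LaurentSeries ℂ) c := rfl
  rw [h1, ModularCurve.algebraMap_laurentSeries_eq_single]
  rfl

variable {X}

lemma plRep_const (c : ℂ) : Rep X (fun _ => c) (algebraMap ℂ ↥X.F c) := by
  show LaurentRel _ _
  rw [plCoe_algebraMap]
  exact laurentRel_const c

lemma plRep_mul {h h' : ℍ → ℂ} {f f' : ↥X.F} (H : Rep X h f) (H' : Rep X h' f') :
    Rep X (h * h') (f * f') := by
  show LaurentRel _ _
  have : (((f * f' : ↥X.F)) : LaurentSeries ℂ)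
      = (f : LaurentSeries ℂ) * (f' : LaurentSeries ℂ) := rfl
  rw [this]
  exact LaurentRel.mul H H'

lemma plRep_add {h h' : ℍ → ℂ} {f f' : ↥X.F} (H : Rep X h f) (H' : Rep X h' f') :
    Rep X (h + h') (f + f') := by
  show LaurentRel _ _
  have : (((f + f' : ↥X.F)) : LaurentSeries ℂ)
      = (f : LaurentSeries ℂ) + (f' : LaurentSeries ℂ) := rfl
  rw [this]
  exact LaurentRel.add H H'

lemma plRep_unique_left {h h' : ℍ → ℂ} {f : ↥X.F} (H : Rep X h f) (H' : Rep X h' f) :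
    h = h' := LaurentRel.unique_left H H'

lemma plRep_unique_right {h : ℍ → ℂ} {f f' : ↥X.F} (H : Rep X h f) (H' : Rep X h f') :
    f = f' := Subtype.ext (LaurentRel.unique_right H H')

lemma plRep_mdiff {h : ℍ → ℂ} {f : ↥X.F} (H : Rep X h f) : MDiff h :=
  LaurentRel.mdifferentiable H

/-- The holomorphic realisation of `X.R`. -/
theorem pl_exists_theta
    (hR : ∀ r : ↥X.F, r ∈ X.R → ∃ h : ℍ → ℂ, Rep X h r) :
    ∃ Θ : ↥X.R →+* (ℍ → ℂ), ∀ r : ↥X.R, Rep X (Θ r) (r : ↥X.F) := by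
  obtain ⟨Θ, hΘ⟩ := gen11_exists_lift (plCoeHom X) (fun r => by
    obtain ⟨h, hh⟩ := hR (r : ↥X.F) r.2
    exact ⟨h, hh⟩)
  exact ⟨Θ, hΘ⟩

lemma pl_isFractionRing
    (hfrac : ∀ f : ↥X.F, ∃ r s : ↥X.F, r ∈ X.R ∧ s ∈ X.R ∧ s ≠ 0 ∧ f * s = r) :
    IsFractionRing ↥X.R ↥X.F := by
  refine IsFractionRing.of_field _ _ ?_
  intro f
  obtain ⟨r, s, hr, hs, hs0, h⟩ := hfrac f
  refine ⟨⟨r, hr⟩, ⟨s, hs⟩, ?_⟩
  exact (eq_div_iff hs0).mpr h

end theta

section main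

variable {X : Model}

/-- **PL-2 engine** (generic): the transparent coset datum at a point `z₀` of `ℍ` with
stabiliser generator `g` and `ord_{z₀}(j - a) = e₀`. -/
theorem cosetDatum_of_point
    (Θ : ↥X.R →+* (ℍ → ℂ))
    (hΘrep : ∀ r : ↥X.R, Rep X (Θ r) (r : ↥X.F))
    (hjmem : X.j ∈ X.R)
    (hΘJ : Θ ⟨X.j, hjmem⟩ = jfun)
    (hinvΘ : ∀ (r : ↥X.R) (β : SL(2, ℤ)), β ∈ X.Γ → ∀ z : ℍ, Θ r (β • z) = Θ r z)
    (hfrac : ∀ f : ↥X.F, ∃ r s : ↥X.F, r ∈ X.R ∧ s ∈ X.R ∧ s ≠ 0 ∧ f * s = r)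
    (hjinv : ∀ (γ : SL(2, ℤ)) (z : ℍ), jfun (γ • z) = jfun z)
    (hsep : ∀ γ : SL(2, ℤ), (∀ (r : ↥X.R) (z : ℍ), Θ r (γ • z) = Θ r z) → γ ∈ X.Γ)
    (z₀ : ℍ) (G : MerGermField (z₀ : ℂ)) (a : ℂ) (g : SL(2, ℤ)) (e₀ : ℕ)
    (hg : g • z₀ = z₀) (he₀ : 0 < e₀)
    (hord : meromorphicOrderAt ((fun z => jfun z - a) ∘ ofComplex) (z₀ : ℂ)
      = ((e₀ : ℤ) : WithTop ℤ))
    (hprim : IsPrimitiveRoot (denom g z₀ ^ 2) e₀) :
    ∃ A : CosetDatum ℂ ↥X.F X.Γ (X.j - algebraMap ℂ ↥X.F a) g e₀,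
      ∀ (γ : SL(2, ℤ)) (f : ↥X.F) (h : ℍ → ℂ), f ≠ 0 → Rep X h f →
        A.val (A.σ γ f)
          = meromorphicOrderAt ((fun z => h (γ⁻¹ • z)) ∘ ofComplex) (z₀ : ℂ) := by
  classical
  have hFR : IsFractionRing ↥X.R ↥X.F := pl_isFractionRing hfrac
  have hfrac' : ∀ f : ↥X.F, ∃ r s : ↥X.R, s ≠ 0 ∧ f * (s : ↥X.F) = r := by
    intro f
    obtain ⟨r, s, hr, hs, hs0, h⟩ := hfrac f
    exact ⟨⟨r, hr⟩, ⟨s, hs⟩, fun h0 => hs0 (congrArg Subtype.val h0), h⟩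
  have hΘmd : ∀ r, MDiff (Θ r) := fun r => plRep_mdiff (hΘrep r)
  have hΘinj : Function.Injective Θ := by
    intro r s h
    have h1 := hΘrep r
    rw [h] at h1
    exact Subtype.ext (plRep_unique_right h1 (hΘrep s))
  have hΘc : ∀ c : ℂ, Θ (algebraMap ℂ ↥X.R c) = fun _ => c := by
    intro c
    exact plRep_unique_left (hΘrep _) (plRep_const c)
  -- the pulled-back homs
  let Θγ : SL(2, ℤ) → (↥X.R →+* (ℍ → ℂ)) := fun γ => (pullHom γ).comp Θ
  have hΘγ : ∀ γ r z, Θγ γ r z = Θ r (γ⁻¹ • z) := fun γ r z => rfl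
  have hΘγmd : ∀ γ r, MDiff (Θγ γ r) := fun γ r => mdiff_pullHom γ (hΘmd r)
  have hΘγinj : ∀ γ, Function.Injective (Θγ γ) := fun γ => (pullHom_injective γ).comp hΘinj
  let sR : SL(2, ℤ) → (↥X.R →+* G.M) := fun γ => germHom G (Θγ γ) (hΘγmd γ)
  have hsRinj : ∀ γ, Function.Injective (sR γ) :=
    fun γ => germHom_injective G _ _ (hΘγinj γ)
  let σ : SL(2, ℤ) → (↥X.F →+* G.M) := fun γ => IsFractionRing.lift (hsRinj γ)
  have hσR : ∀ γ (r : ↥X.R), σ γ (algebraMap ↥X.R ↥X.F r) = sR γ r :=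
    fun γ r => IsFractionRing.lift_algebraMap (hsRinj γ) r
  have hσinj : ∀ γ, Function.Injective (σ γ) := fun γ => (σ γ).injective
  -- constants
  have hconst : ∀ γ (c : ℂ), σ γ (algebraMap ℂ ↥X.F c) = G.germ (fun _ => c) := by
    intro γ c
    rw [IsScalarTower.algebraMap_apply ℂ ↥X.R ↥X.F c, hσR]
    show G.germ (Θγ γ (algebraMap ℂ ↥X.R c) ∘ ofComplex) = _
    congr 1
    funext z
    show Θ (algebraMap ℂ ↥X.R c) _ = _
    rw [hΘc]
  -- the element `y`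
  let yR : ↥X.R := ⟨X.j, hjmem⟩ - algebraMap ℂ ↥X.R a
  have hyR : algebraMap ↥X.R ↥X.F yR = X.j - algebraMap ℂ ↥X.F a := by
    rw [map_sub, ← IsScalarTower.algebraMap_apply ℂ ↥X.R ↥X.F a]
    rfl
  have hΘy : ∀ γ, Θγ γ yR = fun z => jfun z - a := by
    intro γ
    funext z
    rw [hΘγ]
    show Θ (_ - _) _ = _
    rw [map_sub, Pi.sub_apply, hΘJ, hΘc]
    simp only [hjinv]
  have hσy : ∀ γ, σ γ (X.j - algebraMap ℂ ↥X.F a)
      = G.germ ((fun z => jfun z - a) ∘ ofComplex) := by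
    intro γ
    rw [← hyR, hσR]
    show G.germ (Θγ γ yR ∘ ofComplex) = _
    rw [hΘy]
  -- valuations of elements of `X.R`
  have hvalR : ∀ γ (r : ↥X.R), G.val (sR γ r)
      = meromorphicOrderAt (Θγ γ r ∘ ofComplex) (z₀ : ℂ) :=
    fun γ r => val_germHom G _ _ r
  -- fractions
  have hfracσ : ∀ (γ : SL(2, ℤ)) (f : ↥X.F) (r s : ↥X.R), f * (s : ↥X.F) = r →
      σ γ f * sR γ s = sR γ r := by
    intro γ f r s h
    rw [← hσR, ← hσR, ← map_mul]
    exact congrArg _ h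
  -- `σ_eq_iff`
  have hσ_eq_iff : ∀ γ γ' : SL(2, ℤ), σ γ = σ γ' ↔ γ⁻¹ * γ' ∈ X.Γ := by
    intro γ γ'
    constructor
    · intro h
      apply hsep
      intro r z
      have h1 : sR γ r = sR γ' r := by rw [← hσR, ← hσR, h]
      have h2 : Θγ γ r = Θγ γ' r := (germHom_eq_iff G _ _ _ _ r r).mp h1
      have h3 := congrFun h2 (γ' • z)
      rw [hΘγ, hΘγ] at h3
      simpa [mul_smul] using h3
    · intro h
      apply IsFractionRing.ringHom_ext (A := ↥X.R)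
      intro r
      rw [hσR, hσR]
      apply (germHom_eq_iff G _ _ _ _ r r).mpr
      funext z
      rw [hΘγ, hΘγ]
      have e : γ'⁻¹ • z = (γ⁻¹ * γ')⁻¹ • (γ⁻¹ • z) := by
        rw [← mul_smul]; congr 1; group
      rw [e, hinvΘ r _ (inv_mem h)]
  -- `val_g`
  have hfix_inv : (g⁻¹ : SL(2, ℤ)) • z₀ = z₀ := by
    rw [inv_smul_eq_iff, hg]
  have hval_g_R : ∀ γ (r : ↥X.R), G.val (sR (g * γ) r) = G.val (sR γ r) := by
    intro γ r
    rw [hvalR, hvalR]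
    have e : (Θγ (g * γ) r ∘ ofComplex)
        = fun z => (Θγ γ r) (((g⁻¹ : SL(2, ℤ)) : GL (Fin 2) ℝ) • ofComplex z) := by
      funext z
      show Θ r ((g * γ)⁻¹ • ofComplex z) = Θ r (γ⁻¹ • (g⁻¹ • ofComplex z))
      rw [mul_inv_rev, mul_smul]
    rw [e, meromorphicOrderAt_comp_smul (SL_det_pos g⁻¹)]
    have : (((g⁻¹ : SL(2, ℤ)) : GL (Fin 2) ℝ) • z₀) = z₀ := hfix_inv
    rw [this]
    rfl
  have hs_ne : ∀ γ (s : ↥X.R), s ≠ 0 → G.val (sR γ s) ≠ ⊤ := by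
    intro γ s hs
    rw [Ne, AddValuation.top_iff]
    intro h0
    exact hs (hsRinj γ (h0.trans (map_zero _).symm))
  have hval_g : ∀ γ (f : ↥X.F), G.val (σ (g * γ) f) = G.val (σ γ f) := by
    intro γ f
    obtain ⟨r, s, hs, h⟩ := hfrac' f
    have v1 := congrArg G.val (hfracσ (g * γ) f r s h)
    have v2 := congrArg G.val (hfracσ γ f r s h)
    rw [AddValuation.map_mul] at v1 v2
    rw [hval_g_R, hval_g_R] at v1
    exact WithTop.add_right_cancel (hs_ne γ s hs) (v1.trans v2.symm)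
  -- `val_dvd`
  have hval_dvd : ∀ (γ : SL(2, ℤ)) (k : ℕ), γ⁻¹ * g ^ k * γ ∈ X.Γ →
      ∀ f : ↥X.F, f ≠ 0 → ∃ m : ℤ,
        G.val (σ γ f) = ((((e₀ / Nat.gcd e₀ k : ℕ) : ℤ) * m : ℤ) : WithTop ℤ) := by
    intro γ k hk f hf
    have hR : ∀ r : ↥X.R, r ≠ 0 → ∃ n : ℕ,
        G.val (sR γ r) = ((n : ℤ) : WithTop ℤ) ∧ (e₀ / Nat.gcd e₀ k) ∣ n := by
      intro r hr
      obtain ⟨n, hn⟩ := exists_nat_order (Θγ γ) (hΘγmd γ) (hΘγinj γ) z₀ r hr
      refine ⟨n, by rw [hvalR, hn]; rfl, ?_⟩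
      have hinvk : ∀ z, Θγ γ r ((g ^ k) • z) = Θγ γ r z := by
        intro z
        rw [hΘγ, hΘγ]
        have e : γ⁻¹ • (g ^ k) • z = (γ⁻¹ * g ^ k * γ) • (γ⁻¹ • z) := by
          simp [mul_smul]
        rw [e, hinvΘ r _ hk]
      obtain ⟨hfixk, hden⟩ := denom_pow_fixed g z₀ hg k
      have key := denom_sq_pow_eq_one (hΘγmd γ r) (g ^ k) z₀ hfixk hinvk n hn
      rw [hden] at key
      have key' : (denom g z₀ ^ 2) ^ (k * n) = 1 := by
        rw [← key]; ring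
      exact div_gcd_dvd_of_dvd_mul he₀ ((hprim.pow_eq_one_iff_dvd _).mp key')
    obtain ⟨r, s, hs, h⟩ := hfrac' f
    have hr : r ≠ 0 := by
      rintro rfl
      have hs' : (s : ↥X.F) ≠ 0 := fun h0 => hs (Subtype.ext h0)
      exact (mul_ne_zero hf hs') (by rw [h]; rfl)
    obtain ⟨nr, hnr, dr⟩ := hR r hr
    obtain ⟨ns, hns, ds⟩ := hR s hs
    have v := congrArg G.val (hfracσ γ f r s h)
    rw [AddValuation.map_mul, hnr, hns] at v
    have hfne : G.val (σ γ f) ≠ ⊤ := by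
      rw [Ne, AddValuation.top_iff]
      intro h0
      exact hf (hσinj γ (h0.trans (map_zero _).symm))
    obtain ⟨m, hm⟩ := WithTop.ne_top_iff_exists.mp hfne
    rw [← hm] at v ⊢
    have v' : m + (ns : ℤ) = (nr : ℤ) := by exact_mod_cast v
    obtain ⟨qr, hqr⟩ := dr
    obtain ⟨qs, hqs⟩ := ds
    refine ⟨(qr : ℤ) - qs, ?_⟩
    congr 1
    have : m = (nr : ℤ) - ns := by linarith
    rw [this, hqr, hqs]
    push_cast
    ring
  -- transparency
  have htransp : ∀ (γ : SL(2, ℤ)) (f : ↥X.F) (h : ℍ → ℂ), f ≠ 0 → Rep X h f →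
      G.val (σ γ f)
        = meromorphicOrderAt ((fun z => h (γ⁻¹ • z)) ∘ ofComplex) (z₀ : ℂ) := by
    intro γ f h hf hrep
    obtain ⟨r, s, hs, hfs⟩ := hfrac' f
    -- `h * Θ s = Θ r`
    have h1 : h * Θ s = Θ r := by
      have := plRep_mul hrep (hΘrep s)
      rw [hfs] at this
      exact plRep_unique_left this (hΘrep r)
    have hmd : MDiff h := plRep_mdiff hrep
    have h2 : (pullHom γ h) * Θγ γ s = Θγ γ r := by
      show pullHom γ h * pullHom γ (Θ s) = pullHom γ (Θ r)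
      rw [← map_mul, h1]
    have v := congrArg G.val (hfracσ γ f r s hfs)
    rw [AddValuation.map_mul, hvalR, hvalR, ← h2,
      order_mul_of_mdiff (mdiff_pullHom γ hmd) (hΘγmd γ s) z₀] at v
    have hne : meromorphicOrderAt (Θγ γ s ∘ ofComplex) (z₀ : ℂ) ≠ ⊤ := by
      rw [← hvalR]; exact hs_ne γ s hs
    exact WithTop.add_right_cancel hne v
  exact ⟨{
    M := G.M
    val := G.val
    der := G.der
    der_add := G.der_add
    der_mul := G.der_mul
    val_der := G.val_der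
    σ := σ
    val_const := by
      intro γ c hc
      rw [hconst, G.val_germ _ (MeromorphicAt.const _ _), meromorphicOrderAt_const]
      simp [hc]
    der_const := by
      intro γ c
      rw [hconst, G.der_germ _ (MeromorphicAt.const _ _)]
      have : deriv (fun _ : ℂ => c) = fun _ => 0 := by
        funext z; simp
      rw [this]
      exact germ_zero G
    σ_const := by
      intro γ γ' c
      rw [hconst, hconst]
    σ_eq_iff := hσ_eq_iff
    σ_y := by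
      intro γ γ'
      rw [hσy, hσy]
    val_y := by
      intro γ
      rw [hσy, G.val_germ _ (Fermat.Agent.H61.analyticAt_comp_ofComplex
        (f := fun z => jfun z - a) (by simpa [hΘy 1] using hΘγmd 1 yR) z₀).meromorphicAt, hord]
    val_g := hval_g
    val_dvd := hval_dvd }, htransp⟩

end main

/-- **[PL-2]** transparent coset datum at a base point over every `a ∈ ℂ`, for a modular
model. -/
theorem pointDatum (X : Model) (hX : X.IsModular) : PointDatumStatement X := by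
  intro a
  have hfrac := hX.frac
  obtain ⟨Θ, hΘ⟩ := pl_exists_theta (X := X) (fun r hr => by
    obtain ⟨h, hh, -⟩ := hX.rep r hr
    exact ⟨h, hh⟩)
  have hΘJ : Θ ⟨X.j, hX.j_mem⟩ = jfun := plRep_unique_left (hΘ _) hX.j_rep
  have hinvΘ : ∀ (r : ↥X.R) (β : SL(2, ℤ)), β ∈ X.Γ →
      ∀ z : ℍ, Θ r (β • z) = Θ r z := by
    intro r β hβ z
    obtain ⟨h, hh, -, hinv, -⟩ := hX.rep (r : ↥X.F) r.2
    have e : Θ r = h := plRep_unique_left (hΘ r) hh
    rw [e]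
    exact hinv β hβ z
  have hsep : ∀ γ : SL(2, ℤ), (∀ (r : ↥X.R) (z : ℍ), Θ r (γ • z) = Θ r z) → γ ∈ X.Γ := by
    intro γ h
    apply hX.sep
    intro r hfun hr hrep z
    have e : Θ ⟨r, hr⟩ = hfun := plRep_unique_left (hΘ ⟨r, hr⟩) hrep
    rw [← e]
    exact h ⟨r, hr⟩ z
  obtain ⟨hjinv, -, hjsurj, hjgen, ⟨zi, hSi, hji, hoi⟩, ⟨zρ, hSTρ, hjρ, hoρ⟩⟩ :=
    Fermat.Agent.H48.jFacts
  by_cases ha0 : a = 0
  · subst ha0
    obtain ⟨G⟩ := Fermat.Agent.H33.merGerm_statement (zρ : ℂ)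
    have hord : meromorphicOrderAt ((fun z => jfun z - (0 : ℂ)) ∘ ofComplex) (zρ : ℂ)
        = ((3 : ℕ) : ℤ) := by
      have e : ((fun z => jfun z - (0 : ℂ)) ∘ ofComplex) = jfun ∘ ofComplex := by
        funext z; simp
      rw [e, hoρ]; rfl
    obtain ⟨A, hA⟩ := cosetDatum_of_point Θ hΘ hX.j_mem hΘJ hinvΘ hfrac hjinv hsep zρ G 0
      (ModularGroup.S * ModularGroup.T) 3 hSTρ (by norm_num) hord
      (isPrimitiveRoot_denom_ST zρ hSTρ)
    exact ⟨zρ, ModularGroup.S * ModularGroup.T, 3, A, by norm_num, hjρ, hSTρ,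
      isPrimitiveRoot_denom_ST zρ hSTρ, hA⟩
  by_cases ha1 : a = 1728
  · subst ha1
    obtain ⟨G⟩ := Fermat.Agent.H33.merGerm_statement (zi : ℂ)
    have hord : meromorphicOrderAt ((fun z => jfun z - (1728 : ℂ)) ∘ ofComplex) (zi : ℂ)
        = ((2 : ℕ) : ℤ) := by
      rw [hoi]; rfl
    obtain ⟨A, hA⟩ := cosetDatum_of_point Θ hΘ hX.j_mem hΘJ hinvΘ hfrac hjinv hsep zi G 1728
      ModularGroup.S 2 hSi (by norm_num) hord (isPrimitiveRoot_denom_S zi hSi)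
    exact ⟨zi, ModularGroup.S, 2, A, by norm_num, hji, hSi,
      isPrimitiveRoot_denom_S zi hSi, hA⟩
  · obtain ⟨z₀, hz₀⟩ := hjsurj a
    obtain ⟨G⟩ := Fermat.Agent.H33.merGerm_statement (z₀ : ℂ)
    have h0 : jfun z₀ ≠ 0 := by rw [hz₀]; exact ha0
    have h1 : jfun z₀ ≠ 1728 := by rw [hz₀]; exact ha1
    have hord := hjgen z₀ h0 h1
    rw [hz₀] at hord
    have hprim : IsPrimitiveRoot (denom ((1 : SL(2, ℤ)) : GL (Fin 2) ℝ) z₀ ^ 2) 1 := by
      have : denom ((1 : SL(2, ℤ)) : GL (Fin 2) ℝ) z₀ = 1 := by simp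
      rw [this, one_pow]
      exact IsPrimitiveRoot.one
    obtain ⟨A, hA⟩ := cosetDatum_of_point Θ hΘ hX.j_mem hΘJ hinvΘ hfrac hjinv hsep z₀ G a 1 1
      (one_smul _ _) one_pos (by rw [hord]; rfl) hprim
    exact ⟨z₀, 1, 1, A, one_pos, hz₀, one_smul _ _, hprim, hA⟩

end Fermat.Agent.H19.ES1A

end
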