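/-
P-DS / P-ES1 / ES1-A, row ES1A-PD (helper19): principal divisors of the function field of an
arbitrary model `X` (generic port of `Fermat.Agent.H19.principalDivisorC_of_degreeC`): finite
support, degree zero, and functions without zeros and poles are constant.

The general lemmas `Fermat.Agent.H19.hasPrincipalDivisors_of_finite` and
`Fermat.Agent.H19.exists_const_of_ord_eq_zero` (function fields of one variable over an
algebraically closed field of characteristic zero) are used verbatim.
-/
import Fermat.Agent.H23.ES1A.Basic
import Fermat.Agent.H19.EsAPrincipalDivisorC

set_option autoImplicit false

noncomputable section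

open AlgebraicCurve IntermediateField

namespace Fermat.Agent.H19.ES1A

open Fermat.Agent.H23.ES1A

/-- **[PD]** from **[DEG]**: principal divisors of the function field of a model exist and have
degree zero, and functions without zeros and poles are constant. -/
theorem principalDivisor (X : Model) (hDeg : DegreeStatement X) :
    PrincipalDivisorStatement X := by
  obtain ⟨htr, hfin, -⟩ := hDeg
  exact ⟨Fermat.Agent.H19.hasPrincipalDivisors_of_finite _ htr hfin,
    fun f _ hord => Fermat.Agent.H19.exists_const_of_ord_eq_zero _ hfin f hord⟩

end Fermat.Agent.H19.ES1A

end
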